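import Fermat.Agent.Torsion.Order14
import Fermat.Agent.EC.X15Fibre
import Fermat.Agent.Torsion.RealisedBasic

/-!
# Mordell–Weil groups at levels `14` and `15`

`14a4 : y² + xy + y = x³ - x` is the quartic of the proof that there is no point of order `14` and
`15a1 : y² + xy + y = x³ + x² - 10x - 10` is the quartic of the proof that there is no point of
order `15`; their rational points are the six, respectively eight, known ones.
-/

set_option autoImplicit false
set_option linter.style.haveILetI false
set_option linter.unusedSimpArgs false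

noncomputable section

open WeierstrassCurve
open FA.Torsion (cyclicHom cyclicHom_injective twoHom twoHom_injective)

namespace FA.Curve11

/-- A group embedded in the points with at least as many elements as the coordinates allow. -/
theorem equiv_of_list {E : WeierstrassCurve ℚ} {G : Type} [AddCommGroup G] [Finite G]
    (φ : G →+ E.toAffine.Point) (hφ : Function.Injective φ) (S : Finset (ℚ × ℚ))
    (hS : ∀ x y : ℚ, E.toAffine.Equation x y → (x, y) ∈ S) (hcard : S.card + 1 ≤ Nat.card G) :
    Nonempty (E.toAffine.Point ≃+ G) := by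
  let f : E.toAffine.Point → Option S
    | .zero => none
    | .some x y h => some ⟨(x, y), hS x y h.1⟩
  have hf : Function.Injective f := by
    rintro (_ | ⟨x, y, h⟩) (_ | ⟨x', y', h'⟩) he
    · rfl
    · exact absurd he (by simp [f])
    · exact absurd he (by simp [f])
    · simp only [f, Option.some.injEq, Subtype.mk.injEq, Prod.mk.injEq] at he
      obtain ⟨rfl, rfl⟩ := he
      rfl
  haveI : Finite E.toAffine.Point := Finite.of_injective f hf
  refine ⟨(AddEquiv.ofBijective φ (hφ.bijective_of_nat_card_le ?_)).symm⟩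
  refine (Nat.card_le_card_of_injective f hf).trans ?_
  rwa [Finite.card_option, Nat.card_eq_fintype_card, Fintype.card_coe]

/-- The rational solutions of `14a4`. -/
theorem points_fourteen {x y : ℚ} (h : y ^ 2 + x * y + y = x ^ 3 - x) :
    (x, y) ∈ ({(-1, 0), (0, 0), (1, 0), (0, -1), (1, -2)} : Finset (ℚ × ℚ)) := by
  simp only [Finset.mem_insert, Finset.mem_singleton, Prod.mk.injEq]
  by_cases h1 : x = 1
  · subst h1
    have : y * (y + 2) = 0 := by linear_combination h
    rcases mul_eq_zero.mp this with hy | hy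
    · exact Or.inr (Or.inr (Or.inl ⟨rfl, hy⟩))
    · exact Or.inr (Or.inr (Or.inr (Or.inr ⟨rfl, by linarith⟩)))
  by_cases hm : x = -1
  · subst hm
    have : y ^ 2 = 0 := by linear_combination h
    exact Or.inl ⟨rfl, by simpa using this⟩
  have hd : 1 - x ≠ 0 := fun e => h1 (by linarith)
  have hs : x / (1 - x) = 0 := by
    refine FA.Torsion.Fourteen.eq_zero_of_isSquare (z := (2 * y + x + 1) / (1 - x) ^ 2) ?_ ?_ ?_
    · intro e
      rw [div_eq_iff hd] at e
      linarith
    · rw [show 1 + 2 * (x / (1 - x)) = (1 + x) / (1 - x) by field_simp; ring]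
      exact div_ne_zero (fun e => hm (by linarith)) hd
    · field_simp
      linear_combination -4 * h
  obtain rfl : x = 0 := (div_eq_zero_iff.mp hs).resolve_right hd
  have : y * (y + 1) = 0 := by linear_combination h
  rcases mul_eq_zero.mp this with hy | hy
  · exact Or.inr (Or.inl ⟨rfl, hy⟩)
  · exact Or.inr (Or.inr (Or.inr (Or.inl ⟨rfl, by linarith⟩)))

/-- The rational solutions of `15a1`. -/
theorem points_fifteen {x y : ℚ} (h : y ^ 2 + x * y + y = x ^ 3 + x ^ 2 - 10 * x - 10) :
    (x, y) ∈ ({(8, 18), (8, -27), (-2, -2), (-2, 3), (-1, 0), (3, -2), (-13 / 4, 9 / 8)} :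
      Finset (ℚ × ℚ)) := by
  simp only [Finset.mem_insert, Finset.mem_singleton, Prod.mk.injEq]
  by_cases hD : y - 2 * x - 2 = 0
  · obtain rfl : y = 2 * x + 2 := by linarith
    have : (x + 1) * ((x - 8) * (x + 2)) = 0 := by linear_combination -h
    rcases mul_eq_zero.mp this with hx | hx
    · obtain rfl : x = -1 := by linarith
      norm_num
    rcases mul_eq_zero.mp hx with hx | hx
    · obtain rfl : x = 8 := by linarith
      norm_num
    · obtain rfl : x = -2 := by linarith
      norm_num
  set A := (x - 8) / (y - 2 * x - 2) with hA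
  have hAD : A * (y - 2 * x - 2) = x - 8 := div_mul_cancel₀ _ hD
  have hQ : IsSquare ((A ^ 2 + A - 1) * (A ^ 2 - 11 * A - 1)) := by
    refine ⟨-1 + A * (A * (4 * x + 6) - 10) / 2, ?_⟩
    obtain ⟨D, rfl⟩ : ∃ D, y = D + 2 * x + 2 := ⟨y - 2 * x - 2, by ring⟩
    rw [hA, show D + 2 * x + 2 - 2 * x - 2 = D by ring]
    have hD' : D ≠ 0 := fun e => hD (by rw [e]; ring)
    field_simp
    linear_combination 16 * (x - 8) ^ 3 * h
  have hco : IsCoprime A.num (A.den : ℤ) := by
    rw [Int.isCoprime_iff_gcd_eq_one, Int.gcd, Int.natAbs_natCast]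
    exact A.reduced
  have hnd : (A.num : ℚ) = A * A.den := by rw [Rat.mul_den_eq_num]
  have hden : (A.den : ℚ) ≠ 0 := Nat.cast_ne_zero.mpr A.den_ne_zero
  have hsq : IsSquare ((A.num ^ 2 + A.num * A.den - (A.den : ℤ) ^ 2) *
      (A.num ^ 2 - 11 * A.num * A.den - (A.den : ℤ) ^ 2)) := by
    refine Rat.isSquare_intCast_iff.mp ?_
    obtain ⟨z, hz⟩ := hQ
    refine ⟨z * (A.den : ℚ) ^ 2, ?_⟩
    push_cast
    rw [hnd]
    linear_combination ((A.den : ℚ) ^ 4) * hz
  rcases FA.EC.X15.descent hco hsq with e | e | e
  · rcases mul_eq_zero.mp e with e | e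
    · obtain rfl : x = 8 := by
        rw [show A = 0 from Rat.num_eq_zero.mp e] at hAD
        linarith
      have : (y - 18) * (y + 27) = 0 := by linear_combination h
      rcases mul_eq_zero.mp this with hy | hy
      · exact Or.inl ⟨rfl, by linarith⟩
      · exact Or.inr (Or.inl ⟨rfl, by linarith⟩)
    · exact absurd (by exact_mod_cast e) A.den_ne_zero
  · have e' : (A.num : ℚ) = -2 * A.den := by exact_mod_cast e
    rw [mul_right_cancel₀ hden (hnd.symm.trans e')] at hAD
    obtain rfl : y = (3 * x + 12) / 2 := by linarith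
    have : (x - 8) * ((x + 2) * (4 * x + 13)) = 0 := by linear_combination -4 * h
    rcases mul_eq_zero.mp this with hx | hx
    · obtain rfl : x = 8 := by linarith
      norm_num
    rcases mul_eq_zero.mp hx with hx | hx
    · obtain rfl : x = -2 := by linarith
      norm_num
    · obtain rfl : x = -13 / 4 := by linarith
      norm_num
  · have e' : (A.den : ℚ) = 2 * A.num := by exact_mod_cast e
    rw [hnd] at e'
    have hA2 : A = 1 / 2 := mul_right_cancel₀ hden (by linarith)
    rw [hA2] at hAD
    obtain rfl : y = 4 * x - 14 := by linarith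
    have : (x - 3) * (x - 8) ^ 2 = 0 := by linear_combination -h
    rcases mul_eq_zero.mp this with hx | hx
    · obtain rfl : x = 3 := by linarith
      norm_num
    · obtain rfl : x = 8 := by nlinarith
      norm_num

/-- `14a4`. -/
abbrev curveFourteen : WeierstrassCurve ℚ := ⟨1, 0, 1, -1, 0⟩

/-- `15a1`. -/
abbrev curveFifteen : WeierstrassCurve ℚ := ⟨1, 1, 1, -10, -10⟩

/-- The point `(1, 0)` of `14a4`. -/
def genFourteen : curveFourteen.toAffine.Point :=
  .some 1 0 (by rw [Affine.nonsingular_iff, Affine.equation_iff]; norm_num)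

/-- The point `(8, 18)` of `15a1`. -/
def genFifteen : curveFifteen.toAffine.Point :=
  .some 8 18 (by rw [Affine.nonsingular_iff, Affine.equation_iff]; norm_num)

/-- The point `(-1, 0)` of `15a1`. -/
def twoFifteen : curveFifteen.toAffine.Point :=
  .some (-1) 0 (by rw [Affine.nonsingular_iff, Affine.equation_iff]; norm_num)

theorem six_smul_genFourteen : 6 • genFourteen = 0 := by decide +kernel

theorem genFourteen_order : ∀ k : Fin 6, (k : ℕ) • genFourteen = 0 → (k : ℕ) = 0 := by
  decide +kernel

theorem four_smul_genFifteen : 4 • genFifteen = 0 := by decide +kernel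

theorem two_smul_twoFifteen : 2 • twoFifteen = 0 := by decide +kernel

theorem genFifteen_order : ∀ j : Fin 2, ∀ k : Fin 4,
    (j : ℕ) • twoFifteen + (k : ℕ) • genFifteen = 0 → (j : ℕ) = 0 ∧ (k : ℕ) = 0 := by
  decide +kernel

end FA.Curve11

namespace FA.Summary

open FA.Curve11

/-- **The Mordell–Weil group of `14a4`** is `ℤ/6`. -/
theorem point_group_curve14 :
    Nonempty ((⟨1, 0, 1, -1, 0⟩ : WeierstrassCurve ℚ).toAffine.Point ≃+ ZMod 6) :=
  equiv_of_list (cyclicHom genFourteen six_smul_genFourteen)
    (cyclicHom_injective _ genFourteen_order) _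
    (fun x y h => points_fourteen (by
      rw [Affine.equation_iff] at h; linear_combination h))
    (by rw [Nat.card_zmod]; decide +kernel)

/-- **The Mordell–Weil group of `15a1`** is `ℤ/2 × ℤ/4`. -/
theorem point_group_curve15 :
    Nonempty ((⟨1, 1, 1, -10, -10⟩ : WeierstrassCurve ℚ).toAffine.Point ≃+ ZMod 2 × ZMod 4) :=
  equiv_of_list (twoHom twoFifteen genFifteen two_smul_twoFifteen four_smul_genFifteen)
    (twoHom_injective _ _ genFifteen_order) _
    (fun x y h => points_fifteen (by
      rw [Affine.equation_iff] at h; linear_combination h))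
    (by rw [Nat.card_prod, Nat.card_zmod, Nat.card_zmod]; decide +kernel)

end FA.Summary

end
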