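import Fermat.Agent.Curve11.Descent
import Fermat.Agent.MordellWeil.Structure
import Fermat.Agent.Torsion.RealisedBasic
import Fermat.Agent.Frob.VarChange

/-!
# The Mordell–Weil group of `11a3`

`y² + y = x³ - x²` has exactly five rational points: every point is twice a point by the
two-descent, so the group is finite, and the torsion subgroup has order five.
-/

set_option autoImplicit false
set_option linter.style.haveILetI false
set_option linter.unusedSimpArgs false

noncomputable section

open WeierstrassCurve
open FA.Frob (ratCurve vcEquiv)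
open FA.Torsion (shortCurve countMod natCard_torsion_dvd torsion_equiv_of cyclicHom
  cyclicHom_apply cyclicHom_injective)

namespace FA.Curve11

/-- The integral model. -/
def model11 : WeierstrassCurve ℤ := ⟨0, -1, 1, 0, 0⟩

/-- The curve `11a3`. -/
abbrev curve : WeierstrassCurve ℚ := ⟨0, -1, 1, 0, 0⟩

theorem ratCurve_model11 : ratCurve model11 = curve := by ext <;> simp [model11]

instance isElliptic_curve : curve.IsElliptic :=
  ratCurve_model11 ▸ FA.Frob.ratCurve_isElliptic_of_Δ (by decide)

/-- The change of coordinates to `W² = X³ - 4 X² + 16`. -/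
def toShort : VariableChange ℚ := ⟨Units.mk0 (1 / 2) (by norm_num), 0, 0, -1 / 2⟩

theorem toShort_smul : toShort • curve = shortCurve (-4) 0 16 := by
  ext <;> simp [toShort, shortCurve, variableChange_a₁, variableChange_a₂, variableChange_a₃,
    variableChange_a₄, variableChange_a₆] <;> norm_num

theorem two_divisible (P : curve.toAffine.Point) : ∃ R, 2 • R = P := by
  haveI : (shortCurve (-4 : ℚ) 0 16).IsElliptic := toShort_smul ▸ inferInstance
  obtain ⟨R, hR⟩ := exists_half ((vcEquiv toShort toShort_smul).symm P)
  exact ⟨vcEquiv toShort toShort_smul R, by rw [← map_nsmul, hR, AddEquiv.apply_symm_apply]⟩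

local instance fact13 : Fact (Nat.Prime 13) := ⟨by norm_num⟩

local instance fact23 : Fact (Nat.Prime 23) := ⟨by norm_num⟩

theorem gcd_count : (countMod model11 13).gcd (countMod model11 23) ∣ 5 := by decide +kernel

theorem finite_torsion_card :
    Finite (AddCommGroup.torsion curve.toAffine.Point) ∧
      Nat.card (AddCommGroup.torsion curve.toAffine.Point) ∣ 5 := by
  haveI := FA.Frob.ratCurve_isElliptic_of_Δ (W := model11) (by decide)
  obtain ⟨h, hd⟩ := natCard_torsion_dvd 13 model11 (by norm_num) (by decide)
  obtain ⟨-, hd'⟩ := natCard_torsion_dvd 23 model11 (by norm_num) (by decide)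
  rw [← ratCurve_model11]
  exact ⟨h, (Nat.dvd_gcd hd hd').trans gcd_count⟩

/-- Every rational point is torsion. -/
theorem isOfFinAddOrder_point (P : curve.toAffine.Point) : IsOfFinAddOrder P := by
  haveI := FA.MordellWeil.mordell curve
  obtain ⟨r, ⟨e⟩⟩ := FA.MordellWeil.exists_equiv_torsion_prod curve.toAffine.Point
  have h0 : (e P).2 = 0 := funext fun i => by
    exfalso
    obtain ⟨R, hR⟩ := two_divisible (e.symm (0, Pi.single i 1))
    have h := congrArg (fun Q => (e Q).2 i) hR
    simp [map_nsmul] at h
    omega
  obtain ⟨n, hn, hn0⟩ := isOfFinAddOrder_iff_nsmul_eq_zero.mp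
    ((AddCommGroup.mem_torsion _).mp (e P).1.2)
  refine isOfFinAddOrder_iff_nsmul_eq_zero.mpr ⟨n, hn, e.injective ?_⟩
  rw [map_nsmul, map_zero]
  exact Prod.ext (Subtype.ext hn0) (by rw [Prod.smul_snd, h0, smul_zero]; rfl)

/-- The point `(0, 0)`. -/
def basePoint : curve.toAffine.Point :=
  .some 0 0 (Affine.equation_iff_nonsingular.mp ((Affine.equation_iff _ _).mpr (by norm_num)))

theorem nonsingular_one_neg_one : curve.toAffine.Nonsingular 1 (-1) :=
  Affine.equation_iff_nonsingular.mp ((Affine.equation_iff _ _).mpr (by norm_num))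

theorem nonsingular_one_zero : curve.toAffine.Nonsingular 1 0 :=
  Affine.equation_iff_nonsingular.mp ((Affine.equation_iff _ _).mpr (by norm_num))

theorem nonsingular_zero_neg_one : curve.toAffine.Nonsingular 0 (-1) :=
  Affine.equation_iff_nonsingular.mp ((Affine.equation_iff _ _).mpr (by norm_num))

theorem two_smul_basePoint :
    2 • basePoint = Affine.Point.some 1 (-1) nonsingular_one_neg_one := by decide +kernel

theorem three_smul_basePoint :
    3 • basePoint = Affine.Point.some 1 0 nonsingular_one_zero := by decide +kernel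

theorem four_smul_basePoint :
    4 • basePoint = Affine.Point.some 0 (-1) nonsingular_zero_neg_one := by decide +kernel

theorem five_smul_basePoint : 5 • basePoint = 0 := by decide +kernel

theorem basePoint_injective : Function.Injective (cyclicHom basePoint five_smul_basePoint) :=
  cyclicHom_injective _ (by decide +kernel)

theorem basePoint_surjective : Function.Surjective (cyclicHom basePoint five_smul_basePoint) := by
  obtain ⟨hfin, hd⟩ := finite_torsion_card
  let ψ := (cyclicHom basePoint five_smul_basePoint).codRestrict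
    (AddCommGroup.torsion curve.toAffine.Point) fun _ =>
      (AddCommGroup.mem_torsion _).mpr (isOfFinAddOrder_point _)
  have hψ : Function.Injective ψ := fun x y e =>
    basePoint_injective (congrArg Subtype.val e)
  intro P
  obtain ⟨k, hk⟩ := (hψ.bijective_of_nat_card_le
    (by rw [Nat.card_zmod]; exact Nat.le_of_dvd (by norm_num) hd)).2
    ⟨P, (AddCommGroup.mem_torsion _).mpr (isOfFinAddOrder_point P)⟩
  exact ⟨k, congrArg Subtype.val hk⟩

end FA.Curve11

namespace FA.Summary

open FA.Curve11

/-- **The Mordell–Weil group of `11a3`** is `ℤ/5`. -/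
theorem point_group_curve11 :
    Nonempty ((⟨0, -1, 1, 0, 0⟩ : WeierstrassCurve ℚ).toAffine.Point ≃+ ZMod 5) :=
  ⟨(AddEquiv.ofBijective _ ⟨basePoint_injective, basePoint_surjective⟩).symm⟩

/-- The rational solutions of `y² + y = x³ - x²`. -/
theorem rational_points_curve11 {x y : ℚ} (h : y ^ 2 + y = x ^ 3 - x ^ 2) :
    (x = 0 ∨ x = 1) ∧ (y = 0 ∨ y = -1) := by
  have hns : curve.toAffine.Nonsingular x y := Affine.equation_iff_nonsingular.mp
    ((Affine.equation_iff _ _).mpr (by simp; linear_combination h))
  obtain ⟨k, hk⟩ := basePoint_surjective (.some x y hns)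
  rw [cyclicHom_apply] at hk
  have hmem : k.val • basePoint = 0 ∨ ∃ p ∈ [((0 : ℚ), (0 : ℚ)), (1, -1), (1, 0), (0, -1)],
      ∀ h', k.val • basePoint = Affine.Point.some p.1 p.2 h' := by
    fin_cases k
    · exact Or.inl (zero_nsmul _)
    · exact Or.inr ⟨(0, 0), by simp, fun _ => one_nsmul _⟩
    · exact Or.inr ⟨(1, -1), by simp, fun _ => two_smul_basePoint⟩
    · exact Or.inr ⟨(1, 0), by simp, fun _ => three_smul_basePoint⟩
    · exact Or.inr ⟨(0, -1), by simp, fun _ => four_smul_basePoint⟩
  rcases hmem with h0 | ⟨p, hp, hp'⟩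
  · exact absurd (hk.symm.trans h0) (Affine.Point.some_ne_zero hns)
  · have e : curve.toAffine.Nonsingular p.1 p.2 := by
      fin_cases hp <;>
        exact Affine.equation_iff_nonsingular.mp ((Affine.equation_iff _ _).mpr (by norm_num))
    have := hk.symm.trans (hp' e)
    rw [Affine.Point.some.injEq] at this
    obtain ⟨rfl, rfl⟩ := this
    fin_cases hp <;> simp

end FA.Summary

end
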