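import Fermat.Agent.Curve11.Field
import Fermat.Agent.TwoDescent.Short

/-!
# Two-descent on `W² = X³ - 4 X² + 16`

For a rational point `X - θ` is a square in the cubic field, so every point is twice a point.
-/

set_option autoImplicit false
set_option linter.style.haveILetI false
set_option linter.unusedSimpArgs false
set_option linter.unusedTactic false

noncomputable section

open NumberField WeierstrassCurve
open FA.Torsion (shortCurve shortCurve_equation)

namespace FA.Curve11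

/-- `a · b = c²` with every common prime dividing `p` or `q` makes `a` a unit times powers of `p`,
`q` times a square. -/
theorem decomp_of_mul_eq_sq {R : Type*} [CommRing R] [IsDomain R] [UniqueFactorizationMonoid R]
    {p q : R} (hp : Prime p) (hq : Prime q) : ∀ a b c : R, a ≠ 0 → a * b = c ^ 2 →
      (∀ P, Prime P → P ∣ a → P ∣ b → P ∣ p ∨ P ∣ q) →
      ∃ (u : Rˣ) (j k : ℕ) (t : R), a = u * p ^ j * q ^ k * t ^ 2 := by
  intro a
  refine (wellFounded_dvdNotUnit (α := R)).induction (C := fun a => ∀ b c : R, a ≠ 0 →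
    a * b = c ^ 2 → (∀ P, Prime P → P ∣ a → P ∣ b → P ∣ p ∨ P ∣ q) →
      ∃ (u : Rˣ) (j k : ℕ) (t : R), a = u * p ^ j * q ^ k * t ^ 2) a ?_
  intro a ih b c ha h hcommon
  by_cases hu : IsUnit a
  · exact ⟨hu.unit, 0, 0, 1, by simp⟩
  obtain ⟨P, hPi, a', rfl⟩ := WfDvdMonoid.exists_irreducible_factor hu ha
  have hP : Prime P := UniqueFactorizationMonoid.irreducible_iff_prime.mp hPi
  obtain ⟨c', rfl⟩ : P ∣ c := hP.dvd_of_dvd_pow (n := 2) ⟨a' * b, by rw [← h]; ring⟩
  have h' : a' * b = P * c' ^ 2 := mul_left_cancel₀ hP.ne_zero (by linear_combination h)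
  rcases hP.dvd_or_dvd (⟨c' ^ 2, h'⟩ : P ∣ a' * b) with hd | hd
  · obtain ⟨a'', rfl⟩ := hd
    have ha'' : a'' ≠ 0 := right_ne_zero_of_mul (right_ne_zero_of_mul ha)
    obtain ⟨u, j, k, t, rfl⟩ := ih a''
      ⟨ha'', P * P, fun hu => hP.not_isUnit (isUnit_of_mul_isUnit_left hu),
        (mul_assoc P P a'').symm.trans (mul_comm _ _)⟩ b c' ha''
      (mul_left_cancel₀ hP.ne_zero (by linear_combination h'))
      (fun Q hQ hQa hQb => hcommon Q hQ (dvd_mul_of_dvd_right (dvd_mul_of_dvd_right hQa _) _) hQb)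
    exact ⟨u, j, k, P * t, by ring⟩
  · obtain ⟨b', rfl⟩ := hd
    have ha' : a' ≠ 0 := right_ne_zero_of_mul ha
    obtain ⟨u, j, k, t, rfl⟩ := ih a' ⟨ha', P, hP.not_isUnit, mul_comm _ _⟩ b' c' ha'
      (mul_left_cancel₀ hP.ne_zero (by linear_combination h'))
      (fun Q hQ hQa hQb => hcommon Q hQ (dvd_mul_of_dvd_right hQa _) (dvd_mul_of_dvd_right hQb _))
    rcases hcommon P hP (dvd_mul_right _ _) (dvd_mul_right _ _) with hd' | hd'
    · obtain ⟨v, hv⟩ := hP.associated_of_dvd hp hd'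
      exact ⟨u * v⁻¹, j + 1, k, t, by
        rw [show P = p * (↑v⁻¹ : R) by rw [← hv, Units.mul_inv_cancel_right], Units.val_mul]
        ring⟩
    · obtain ⟨v, hv⟩ := hP.associated_of_dvd hq hd'
      exact ⟨u * v⁻¹, j, k + 1, t, by
        rw [show P = q * (↑v⁻¹ : R) by rw [← hv, Units.mul_inv_cancel_right], Units.val_mul]
        ring⟩

/-- The root of `X³ - 4 X² + 16`. -/
def theta : K := 2 * phi - 2 * phi ^ 2

/-- The root as an algebraic integer. -/
def thetaO : 𝓞 K := 2 * phiO - 2 * phiO ^ 2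

theorem coe_thetaO : (thetaO : K) = theta := by simp [thetaO, theta, map_ofNat]

theorem theta_eq : theta ^ 3 - 4 * theta ^ 2 + 16 = 0 := by
  simp only [theta]
  linear_combination (-8 * phi ^ 3 + 16 * phi ^ 2 - 16 * phi + 16) * phi_eq

theorem thetaO_eq : thetaO ^ 3 - 4 * thetaO ^ 2 + 16 = 0 :=
  RingOfIntegers.ext (by simpa [coe_thetaO, map_ofNat] using theta_eq)

theorem el_sub_theta (X : ℚ) : (X : K) - theta = el X (-2) 2 := by
  simp [theta, el]; ring

theorem quad_theta_eq_zero {a b c : ℚ}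
    (h : (a : K) * theta ^ 2 + (b : K) * theta + (c : K) = 0) : a = 0 ∧ b = 0 ∧ c = 0 := by
  have h' : el (c + 4 * a) (2 * b) (-2 * b - 4 * a) = el 0 0 0 := by
    have e : theta ^ 2 = 4 * (1 - phi ^ 2) := by
      simp only [theta]; linear_combination (4 * phi - 4) * phi_eq
    rw [e] at h
    simp only [theta] at h
    simp [el]
    linear_combination h
  obtain ⟨h0, h1, h2⟩ := el_inj h'
  exact ⟨by linarith, by linarith, by linarith⟩

/-- **The two-descent**: `X - θ` is a square for every rational point. -/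
theorem sub_theta_isSquare {X W : ℚ} (h : W ^ 2 = X ^ 3 - 4 * X ^ 2 + 16) :
    ∃ s : K, (X : K) - theta = s ^ 2 := by
  haveI := isPrincipalIdealRing_K
  set n := X.num
  set q : ℤ := (X.den : ℤ) with hqd
  have hq : 0 < q := Int.natCast_pos.2 X.den_pos
  have hq0 : (q : ℚ) ≠ 0 := by exact_mod_cast hq.ne'
  have hX : X * (q : ℚ) = (n : ℚ) := by
    rw [hqd, Int.cast_natCast]; exact Rat.mul_den_eq_num X
  have hco : IsCoprime n q := Int.isCoprime_iff_gcd_eq_one.2 X.reduced
  set H : ℤ := n ^ 3 - 4 * n ^ 2 * q + 16 * q ^ 3 with hH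
  have hXne : (X : K) - theta ≠ 0 := fun e => by
    rw [el_sub_theta, show (0 : K) = el 0 0 0 by simp [el]] at e
    have := (el_inj e).2.1
    norm_num at this
  have hnorm : Algebra.norm ℚ ((X : K) - theta) = X ^ 3 - 4 * X ^ 2 + 16 := by
    rw [el_sub_theta, norm_el]; ring
  have hW : W ≠ 0 := fun e => by
    rw [e] at h
    exact (Algebra.norm_ne_zero_iff.mpr hXne) (by rw [hnorm, ← h]; ring)
  obtain ⟨M, hM⟩ : ∃ M : ℤ, M ^ 2 = q * H := by
    have h1 : IsSquare ((q * H : ℤ) : ℚ) := ⟨W * (q : ℚ) ^ 2, by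
      rw [hH]; push_cast; rw [← hX]
      linear_combination -(q : ℚ) ^ 4 * h⟩
    obtain ⟨M, hM⟩ := Rat.isSquare_intCast_iff.1 h1
    exact ⟨M, by rw [hM, sq]⟩
  have hqH : IsCoprime q H := by
    have := (hco.pow_left (m := 3)).symm.add_mul_left_right (-4 * n ^ 2 + 16 * q ^ 2)
    rwa [show n ^ 3 + q * (-4 * n ^ 2 + 16 * q ^ 2) = H by rw [hH]; ring] at this
  have hHq : (H : ℚ) = W ^ 2 * (q : ℚ) ^ 3 := by
    rw [hH]; push_cast; rw [← hX]; linear_combination -(q : ℚ) ^ 3 * h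
  have hHpos : 0 < H := by
    have : (0 : ℚ) < H := by
      rw [hHq]
      have : (0 : ℚ) < q := by exact_mod_cast hq
      positivity
    exact_mod_cast this
  obtain ⟨d, hd | hd⟩ := Int.sq_of_isCoprime hqH hM.symm
  swap
  · nlinarith [sq_nonneg d]
  obtain ⟨b, hb | hb⟩ := Int.sq_of_isCoprime hqH.symm ((mul_comm H q).trans hM.symm)
  swap
  · nlinarith [sq_nonneg b]
  set γ : 𝓞 K := (n : 𝓞 K) - thetaO * (q : 𝓞 K) with hγ
  set G : 𝓞 K := (n : 𝓞 K) ^ 2 + (thetaO - 4) * (n : 𝓞 K) * (q : 𝓞 K) +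
    (thetaO ^ 2 - 4 * thetaO) * (q : 𝓞 K) ^ 2 with hG
  have hγK : (γ : K) = ((q : ℚ) : K) * ((X : K) - theta) := by
    have hXK : (X : K) * ((q : ℚ) : K) = ((n : ℚ) : K) := by exact_mod_cast hX
    simp [hγ, coe_thetaO]
    push_cast at hXK
    linear_combination -hXK
  have hγ0 : γ ≠ 0 := fun e => by
    rw [e] at hγK
    simp only [map_zero] at hγK
    rcases mul_eq_zero.mp hγK.symm with e' | e'
    · exact hq0 (by exact_mod_cast e')
    · exact hXne e'
  have hγG : γ * G = (b : 𝓞 K) ^ 2 := by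
    have hH' : ((H : ℤ) : 𝓞 K) = (b : 𝓞 K) ^ 2 := by rw [hb]; push_cast; rfl
    rw [← hH', hH, hγ, hG]
    push_cast
    linear_combination -(q : 𝓞 K) ^ 3 * thetaO_eq
  have htwo : piTwo ^ 3 = 2 * (phiO + 2 * phiO ^ 2) := by
    simp only [piTwo]; linear_combination phiO_eq
  have hcommon : ∀ P : 𝓞 K, Prime P → P ∣ γ → P ∣ G → P ∣ piTwo ∨ P ∣ piEleven := by
    intro P hP h1 h2
    have h3 : P ∣ (4 * ((phiO - 1) * (phiO - 3))) * (q : 𝓞 K) ^ 2 := by
      have := dvd_sub h2 (dvd_mul_of_dvd_left h1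
        ((n : 𝓞 K) + thetaO * (q : 𝓞 K) + (thetaO - 4) * (q : 𝓞 K)))
      convert this using 1
      simp only [hγ, hG, thetaO]
      linear_combination (-12 * phiO + 12) * (q : 𝓞 K) ^ 2 * phiO_eq
    rcases hP.dvd_or_dvd h3 with h3 | h3
    swap
    · have h4 := hP.dvd_of_dvd_pow h3
      have h5 : P ∣ (n : 𝓞 K) := by
        have := dvd_add h1 (dvd_mul_of_dvd_right h4 thetaO)
        rwa [hγ, sub_add_cancel] at this
      exact absurd ((hco.map (Int.castRingHom (𝓞 K))).isUnit_of_dvd' h5 h4) hP.not_isUnit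
    rcases hP.dvd_or_dvd h3 with h3 | h3
    · rw [show (4 : 𝓞 K) = 2 * 2 by norm_num] at h3
      have h4 : P ∣ (2 : 𝓞 K) := (hP.dvd_or_dvd h3).elim id id
      exact Or.inl (hP.dvd_of_dvd_pow (n := 3) (htwo ▸ dvd_mul_of_dvd_left h4 _))
    rcases hP.dvd_or_dvd h3 with h3 | h3
    · refine Or.inl (dvd_trans h3 ⟨-phiO ^ 2, ?_⟩)
      simp only [piTwo]
      linear_combination phiO_eq
    · rw [show phiO - 3 = piTwo * piEleven by
        simp only [piTwo, piEleven]; linear_combination 2 * phiO_eq] at h3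
      exact hP.dvd_or_dvd h3
  obtain ⟨u, j, k, t, ht⟩ := decomp_of_mul_eq_sq prime_piTwo prime_piEleven γ G _ hγ0 hγG hcommon
  obtain ⟨e, i, η, he, hi, hu⟩ := unit_eq u
  obtain ⟨j', j₀, hj, rfl⟩ : ∃ j' j₀, j₀ < 2 ∧ j = j₀ + 2 * j' :=
    ⟨j / 2, j % 2, Nat.mod_lt _ two_pos, (Nat.mod_add_div j 2).symm⟩
  obtain ⟨k', k₀, hk, rfl⟩ : ∃ k' k₀, k₀ < 2 ∧ k = k₀ + 2 * k' :=
    ⟨k / 2, k % 2, Nat.mod_lt _ two_pos, (Nat.mod_add_div k 2).symm⟩
  set T : K := η * (piTwo : K) ^ j' * (piEleven : K) ^ k' * (t : K) with hT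
  have hγT : (γ : K) = e * phi ^ i * (piTwo : K) ^ j₀ * (piEleven : K) ^ k₀ * T ^ 2 := by
    rw [ht, hT]; simp only [map_mul, map_pow, hu]; ring
  have hd0 : (d : ℚ) ≠ 0 := by
    intro e'
    rw [hd, Int.cast_pow, e'] at hq0
    exact hq0 (by norm_num)
  set S : K := T / ((d : ℚ) : K) with hS
  have hXT : (X : K) - theta = e * phi ^ i * (piTwo : K) ^ j₀ * (piEleven : K) ^ k₀ * S ^ 2 := by
    have hdK : ((d : ℚ) : K) ≠ 0 := by exact_mod_cast hd0
    rw [hS, div_pow, ← mul_div_assoc, ← hγT, hγK, hd, eq_div_iff (pow_ne_zero _ hdK)]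
    push_cast
    ring
  have hS0 : S ≠ 0 := fun e' => hXne (by rw [hXT, e']; ring)
  set N := Algebra.norm ℚ S
  have hN0 : N ≠ 0 := Algebra.norm_ne_zero_iff.mpr hS0
  have hn := congrArg (Algebra.norm ℚ) hXT
  rw [hnorm, ← h, map_mul, map_mul, map_mul, map_mul, map_pow, map_pow, map_pow, map_pow,
    norm_piTwo, norm_piEleven, show phi = el 0 1 0 by simp [el], norm_el] at hn
  norm_num at hn
  have notsq : ∀ r : ℤ, ¬ IsSquare r → W ^ 2 ≠ (r : ℚ) * N ^ 2 := fun r hr e' =>
    hr (Rat.isSquare_intCast_iff.1 ⟨W / N, by field_simp; linear_combination -e'⟩)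
  have hnm1 : Algebra.norm ℚ (-1 : K) = -1 := by
    rw [show (-1 : K) = el (-1) 0 0 by simp [el], norm_el]; norm_num
  have bad : ∀ r : ℤ, r ∈ [-1, 2, -2, 11, -11, 22, -22] → W ^ 2 ≠ (r : ℚ) * N ^ 2 := by
    intro r hr
    refine notsq r ?_
    fin_cases hr <;> decide +kernel
  have b1 : W ^ 2 ≠ -(N ^ 2) := by simpa using bad (-1) (by simp)
  have b2 : W ^ 2 ≠ 2 * N ^ 2 := by simpa using bad 2 (by simp)
  have b3 : W ^ 2 ≠ -(2 * N ^ 2) := by simpa using bad (-2) (by simp)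
  have b4 : W ^ 2 ≠ 11 * N ^ 2 := by simpa using bad 11 (by simp)
  have b5 : W ^ 2 ≠ -(11 * N ^ 2) := by simpa using bad (-11) (by simp)
  have b6 : W ^ 2 ≠ 22 * N ^ 2 := by simpa using bad 22 (by simp)
  have b7 : W ^ 2 ≠ -(22 * N ^ 2) := by simpa using bad (-22) (by simp)
  rcases he with rfl | rfl <;> simp only [map_one, hnm1] at hn <;>
    interval_cases i <;> interval_cases j₀ <;> interval_cases k₀ <;> norm_num at hn <;>
    first
      | (exfalso
         first
           | (apply b1; linarith; done)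
           | (apply b2; linarith; done)
           | (apply b3; linarith; done)
           | (apply b4; linarith; done)
           | (apply b5; linarith; done)
           | (apply b6; linarith; done)
           | (apply b7; linarith; done))
      | (refine ⟨S, ?_⟩
         rw [hXT]
         simp
         done)
      | (exfalso
         refine ne_eps_mul_sq hS0 X 1 ?_
         rw [show el X (-2 * 1 ^ 2) (2 * 1 ^ 2) = el X (-2) 2 by norm_num, ← el_sub_theta, hXT]
         simp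
         done)

/-- The powers of `θ` span the field. -/
theorem span_theta (k : K) :
    ∃ x y z : ℚ, k = (x : K) + (y : K) * theta + (z : K) * theta ^ 2 := by
  obtain ⟨x, y, z, rfl⟩ := exists_el k
  refine ⟨x + y + z, y / 2, -(y + z) / 4, ?_⟩
  simp only [el, theta]
  push_cast
  linear_combination ((y + z : K) * (phi - 1)) * phi_eq

/-- Every point is twice a point. -/
theorem exists_half (P : (shortCurve (-4 : ℚ) 0 16).toAffine.Point)
    [(shortCurve (-4 : ℚ) 0 16).IsElliptic] : ∃ R, 2 • R = P := by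
  rcases P with _ | ⟨X, W, hP⟩
  · exact ⟨0, by rw [nsmul_zero]; rfl⟩
  obtain ⟨s, hs⟩ := sub_theta_isSquare
    (show W ^ 2 = X ^ 3 - 4 * X ^ 2 + 16 by linear_combination shortCurve_equation hP)
  exact FA.TwoDescent.exists_half (by push_cast; linear_combination theta_eq)
    (fun _ _ _ h => quad_theta_eq_zero h) span_theta (hP := hP) hs

end FA.Curve11

end
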