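import Mathlib.NumberTheory.NumberField.ClassNumber
import Mathlib.NumberTheory.NumberField.Units.DirichletTheorem
import Mathlib.NumberTheory.NumberField.Discriminant.Basic
import Mathlib.Algebra.Polynomial.SpecificDegree
import Mathlib.RingTheory.Ideal.Norm.AbsNorm
import Mathlib.Analysis.Real.Pi.Bounds
import Mathlib.Tactic.NormNum.Prime

/-!
# The cubic field of discriminant `-44`

`K = ℚ(φ)` with `φ³ = φ² - φ - 1`, the field of the points of order two of `11a3`: class number one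
and units `± φ^k` up to squares.
-/

set_option autoImplicit false
set_option linter.style.haveILetI false
set_option linter.unusedSimpArgs false

noncomputable section

open Polynomial NumberField Module

namespace FA.Curve11

/-- The polynomial of `φ`. -/
def fK : ℚ[X] := X ^ 3 - X ^ 2 + X + 1

theorem fK_monic : fK.Monic := by unfold fK; monicity!

theorem natDegree_fK : fK.natDegree = 3 := by unfold fK; compute_degree!

theorem no_rat_root (x : ℚ) : x ^ 3 - x ^ 2 + x + 1 ≠ 0 := by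
  intro hx
  have e : x.num ^ 3 - x.num ^ 2 * (x.den : ℤ) + x.num * (x.den : ℤ) ^ 2 + (x.den : ℤ) ^ 3 = 0 := by
    have : (x.num : ℚ) ^ 3 - (x.num : ℚ) ^ 2 * (x.den : ℚ) + (x.num : ℚ) * (x.den : ℚ) ^ 2 +
        (x.den : ℚ) ^ 3 = 0 := by
      rw [← Rat.mul_den_eq_num x]; linear_combination (x.den : ℚ) ^ 3 * hx
    exact_mod_cast this
  have hco : IsCoprime x.num (x.den : ℤ) := by
    rw [Int.isCoprime_iff_gcd_eq_one, Int.gcd, Int.natAbs_natCast]
    exact x.reduced
  have hden : IsUnit (x.den : ℤ) := (hco.pow_left (m := 3)).symm.isUnit_of_dvd' dvd_rfl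
    ⟨x.num ^ 2 - x.num * (x.den : ℤ) - (x.den : ℤ) ^ 2, by linear_combination e⟩
  rw [show (x.den : ℤ) = 1 by rcases Int.isUnit_iff.mp hden with h | h <;> omega] at e
  have hnum : IsUnit x.num :=
    isUnit_of_dvd_one ⟨-x.num ^ 2 + x.num - 1, by linear_combination e⟩
  rcases Int.isUnit_iff.mp hnum with h | h <;> rw [h] at e <;> norm_num at e

theorem fK_irreducible : Irreducible fK := by
  rw [fK_monic.irreducible_iff_roots_eq_zero_of_degree_le_three (by rw [natDegree_fK]; omega)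
    (by rw [natDegree_fK])]
  refine Multiset.eq_zero_of_forall_notMem fun x hx => no_rat_root x ?_
  have := (mem_roots'.mp hx).2
  simpa [fK] using this

instance fact_fK : Fact (Irreducible fK) := ⟨fK_irreducible⟩

/-- The cubic field. -/
abbrev K : Type := AdjoinRoot fK

/-- The root. -/
abbrev phi : K := AdjoinRoot.root fK

instance charZero_K : CharZero K := charZero_of_injective_algebraMap (algebraMap ℚ K).injective

instance finiteDimensional_K : FiniteDimensional ℚ K :=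
  (AdjoinRoot.powerBasis fK_monic.ne_zero).finite

instance numberField_K : NumberField K := {}

theorem phi_eq : phi ^ 3 - phi ^ 2 + phi + 1 = 0 := by
  have h : aeval phi fK = 0 := (AdjoinRoot.aeval_eq fK).trans AdjoinRoot.mk_self
  simpa [fK] using h

theorem finrank_K : finrank ℚ K = 3 := by
  rw [(AdjoinRoot.powerBasis fK_monic.ne_zero).finrank, AdjoinRoot.powerBasis_dim, natDegree_fK]

/-- The basis `1, φ, φ²`. -/
def basisK : Basis (Fin 3) ℚ K :=
  (AdjoinRoot.powerBasis fK_monic.ne_zero).basis.reindex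
    (finCongr (by rw [AdjoinRoot.powerBasis_dim, natDegree_fK]))

theorem basisK_apply (j : Fin 3) : basisK j = phi ^ (j : ℕ) := by simp [basisK, phi]

/-- The element `x + y φ + z φ²`. -/
def el (x y z : ℚ) : K := (x : K) + (y : K) * phi + (z : K) * phi ^ 2

theorem el_eq_sum (x y z : ℚ) : el x y z = ∑ i, ![x, y, z] i • basisK i := by
  simp [el, Fin.sum_univ_three, basisK_apply, Algebra.smul_def]

theorem el_inj {x y z x' y' z' : ℚ} (h : el x y z = el x' y' z') :
    x = x' ∧ y = y' ∧ z = z' := by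
  rw [el_eq_sum, el_eq_sum] at h
  have e : ∀ c : Fin 3 → ℚ, ⇑(basisK.repr (∑ i, c i • basisK i)) = c := fun c =>
    funext fun i => by rw [Basis.repr_sum_self]
  have := e ![x, y, z]
  rw [h, e] at this
  have h0 := congrFun this 0
  have h1 := congrFun this 1
  have h2 := congrFun this 2
  simp at h0 h1 h2
  exact ⟨h0.symm, h1.symm, h2.symm⟩

theorem exists_el (k : K) : ∃ x y z : ℚ, k = el x y z :=
  ⟨basisK.repr k 0, basisK.repr k 1, basisK.repr k 2, by
    conv_lhs => rw [← basisK.sum_repr k]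
    simp [el, Fin.sum_univ_three, basisK_apply, Algebra.smul_def]⟩

theorem el_mul (x y z x' y' z' : ℚ) : el x y z * el x' y' z' =
    el (x * x' - (y * z' + z * y') - z * z') (x * y' + y * x' - (y * z' + z * y') - 2 * (z * z'))
      (x * z' + y * y' + z * x' + (y * z' + z * y')) := by
  simp only [el]
  push_cast
  linear_combination ((y : K) * z' + z * y' + z * z' * (phi + 1)) * phi_eq

theorem leftMul_el (x y z : ℚ) : Algebra.leftMulMatrix basisK (el x y z) =
    !![x, -z, -y - z; y, x - z, -y - 2 * z; z, y + z, x + y] := by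
  ext i j
  rw [Algebra.leftMulMatrix_eq_repr_mul, basisK_apply]
  have hcol : el x y z * phi ^ (j : ℕ) = ∑ k, !![x, -z, -y - z; y, x - z, -y - 2 * z;
      z, y + z, x + y] k j • basisK k := by
    fin_cases j <;> simp [el, Fin.sum_univ_three, basisK_apply, Algebra.smul_def]
    · linear_combination (z : K) * phi_eq
    · linear_combination ((z : K) * phi + y + z) * phi_eq
  rw [hcol, Basis.repr_sum_self]

theorem norm_el (x y z : ℚ) : Algebra.norm ℚ (el x y z) =
    x * ((x - z) * (x + y) - (-y - 2 * z) * (y + z)) - -z * (y * (x + y) - (-y - 2 * z) * z) +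
      (-y - z) * (y * (y + z) - (x - z) * z) := by
  rw [Algebra.norm_eq_matrix_det basisK, leftMul_el, Matrix.det_fin_three]
  simp
  ring

theorem isIntegral_phi : IsIntegral ℤ phi :=
  ⟨X ^ 3 - X ^ 2 + X + 1, by monicity!, by simpa using phi_eq⟩

/-- The root as an algebraic integer. -/
def phiO : 𝓞 K := ⟨phi, isIntegral_phi⟩

@[simp] theorem coe_phiO : (phiO : K) = phi := rfl

theorem phiO_eq : phiO ^ 3 - phiO ^ 2 + phiO + 1 = 0 :=
  RingOfIntegers.ext (by simpa using phi_eq)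

/-! ### The discriminant and the class number -/

theorem discr_powers : Algebra.discr ℚ (fun j : Fin 3 => phi ^ (j : ℕ)) = -44 := by
  have htr : ∀ x y z : ℚ, Algebra.trace ℚ K (el x y z) = 3 * x + y - z := fun x y z => by
    rw [Algebra.trace_eq_matrix_trace basisK, leftMul_el, Matrix.trace_fin_three]
    simp
    ring
  have hM : Algebra.traceMatrix ℚ (fun j : Fin 3 => phi ^ (j : ℕ)) =
      !![3, 1, -1; 1, -1, -5; -1, -5, -5] := by
    ext i j
    rw [Algebra.traceMatrix_apply, Algebra.traceForm_apply, ← pow_add]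
    have h0 : phi ^ 0 = el 1 0 0 := by simp [el]
    have h1 : phi ^ 1 = el 0 1 0 := by simp [el]
    have h2 : phi ^ 2 = el 0 0 1 := by simp [el]
    have h3 : phi ^ 3 = el (-1) (-1) 1 := by
      simp [el]; linear_combination phi_eq
    have h4 : phi ^ 4 = el (-1) (-2) 0 := by
      simp [el]; linear_combination (phi + 1) * phi_eq
    have ht1 : Algebra.trace ℚ K 1 = 3 := by
      simpa [el] using htr 1 0 0
    have htp : Algebra.trace ℚ K phi = 1 := by
      simpa [el] using htr 0 1 0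
    fin_cases i <;> fin_cases j <;> norm_num [ht1, htp, h0, h1, h2, h3, h4, htr]
  rw [Algebra.discr_def, hM, Matrix.det_fin_three]
  simp
  norm_num

theorem abs_discr_le : |discr K| ≤ 44 := by
  classical
  set b : Fin 3 → K := fun j => phi ^ (j : ℕ) with hb
  have hint : ∀ i, IsIntegral ℤ (b i) := fun i => isIntegral_phi.pow _
  let e : Fin 3 ≃ Free.ChooseBasisIndex ℤ (𝓞 K) := Fintype.equivOfCardEq (by
    rw [Fintype.card_fin, ← finrank_K, ← Module.finrank_eq_card_basis (integralBasis K)])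
  let bas := (integralBasis K).reindex e.symm
  let P₀ : Matrix (Fin 3) (Fin 3) ℤ := fun i j =>
    (RingOfIntegers.basis K).repr (⟨b j, hint j⟩ : 𝓞 K) (e i)
  have hP : bas.toMatrix b = P₀.map (algebraMap ℤ ℚ) := by
    ext i j
    rw [Basis.toMatrix_apply, Basis.repr_reindex_apply, Matrix.map_apply, e.symm_symm]
    exact integralBasis_repr_apply K (⟨b j, hint j⟩ : 𝓞 K) (e i)
  have h := Algebra.discr_of_matrix_vecMul (A := ℚ) (bas : Fin 3 → K) (bas.toMatrix b)
  rw [Basis.toMatrix_map_vecMul, Basis.coe_reindex, e.symm_symm,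
    show (integralBasis K : _ → K) ∘ e = (integralBasis K) ∘ ⇑e.symm.symm from rfl,
    Algebra.discr_reindex, ← coe_discr, hP,
    show P₀.map (algebraMap ℤ ℚ) = (algebraMap ℤ ℚ).mapMatrix P₀ from rfl, ← RingHom.map_det,
    hb, discr_powers] at h
  have h' : (-44 : ℤ) = P₀.det ^ 2 * discr K := by
    rw [eq_intCast] at h
    exact_mod_cast h
  exact Int.le_of_dvd (by norm_num) ((abs_dvd _ _).mpr ⟨-P₀.det ^ 2, by linear_combination -h'⟩)

/-! ### Signature -/

theorem nrRealPlaces_le_one : InfinitePlace.nrRealPlaces K ≤ 1 := by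
  classical
  rw [InfinitePlace.nrRealPlaces, Fintype.card_le_one_iff]
  rintro ⟨w, hw⟩ ⟨w', hw'⟩
  apply Subtype.ext
  set σ := InfinitePlace.embedding_of_isReal hw with hσ
  set τ := InfinitePlace.embedding_of_isReal hw' with hτ
  have h1 : σ phi ^ 3 - σ phi ^ 2 + σ phi + 1 = 0 := by
    simpa using congrArg σ phi_eq
  have h2 : τ phi ^ 3 - τ phi ^ 2 + τ phi + 1 = 0 := by
    simpa using congrArg τ phi_eq
  have he : σ phi = τ phi := by
    by_contra hne
    have h3 : σ phi ^ 2 + σ phi * τ phi + τ phi ^ 2 - σ phi - τ phi + 1 = 0 :=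
      (mul_eq_zero.mp (show (σ phi - τ phi) * (σ phi ^ 2 + σ phi * τ phi + τ phi ^ 2 - σ phi -
        τ phi + 1) = 0 by linear_combination h1 - h2)).resolve_left (sub_ne_zero.mpr hne)
    nlinarith [sq_nonneg (σ phi + τ phi - 2 / 3), sq_nonneg (σ phi - τ phi)]
  refine (InfinitePlace.mk_embedding w).symm.trans ((congrArg InfinitePlace.mk ?_).trans
    (InfinitePlace.mk_embedding w'))
  refine RingHom.ext fun k => ?_
  obtain ⟨x, y, z, rfl⟩ := exists_el k
  have e1 : ((σ phi : ℝ) : ℂ) = w.embedding phi := InfinitePlace.embedding_of_isReal_apply hw phi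
  have e2 : ((τ phi : ℝ) : ℂ) = w'.embedding phi := InfinitePlace.embedding_of_isReal_apply hw' phi
  simp only [el, map_add, map_mul, map_pow, map_ratCast, ← e1, ← e2, he]

theorem signature : InfinitePlace.nrRealPlaces K = 1 ∧ InfinitePlace.nrComplexPlaces K = 1 := by
  have h := InfinitePlace.card_add_two_mul_card_eq_rank K
  have := nrRealPlaces_le_one
  rw [finrank_K] at h
  omega

theorem isPrincipalIdealRing_K : IsPrincipalIdealRing (𝓞 K) := by
  refine RingOfIntegers.isPrincipalIdealRing_of_isPrincipal_of_norm_le_of_isPrime fun I hI hN => ?_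
  have hlt : (4 / Real.pi) ^ InfinitePlace.nrComplexPlaces K *
      ((Nat.factorial (finrank ℚ K)) / (finrank ℚ K : ℝ) ^ (finrank ℚ K) * √|(discr K : ℝ)|) < 2 := by
    rw [signature.2, finrank_K, pow_one, show Nat.factorial 3 = 6 from rfl]
    have hd : (|(discr K : ℝ)|) ≤ (67 / 10) ^ 2 := by
      rw [← Int.cast_abs]
      exact le_trans (Int.cast_le.2 abs_discr_le) (by norm_num)
    have hs : √|(discr K : ℝ)| ≤ 67 / 10 := by
      rw [← Real.sqrt_sq (show (0 : ℝ) ≤ 67 / 10 by norm_num)]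
      exact Real.sqrt_le_sqrt hd
    have hpi : 4 / Real.pi < 13 / 10 := by
      rw [div_lt_div_iff₀ Real.pi_pos (by norm_num)]
      nlinarith [Real.pi_gt_d2]
    calc _ ≤ (13 / 10 : ℝ) * (6 / 3 ^ 3 * (67 / 10)) := by push_cast; gcongr
      _ < 2 := by norm_num
  have hn : ((Ideal.absNorm (I : Ideal (𝓞 K)) : ℕ) : ℝ) < ((2 : ℕ) : ℝ) := by
    push_cast; exact hN.trans_lt hlt
  have h2 : Ideal.absNorm (I : Ideal (𝓞 K)) < 2 := by exact_mod_cast hn
  have h0 : Ideal.absNorm (I : Ideal (𝓞 K)) ≠ 0 := by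
    rw [Ne, Ideal.absNorm_eq_zero_iff]; exact nonZeroDivisors.coe_ne_zero I
  exact absurd (Ideal.absNorm_eq_one_iff.1 (by omega)) hI.ne_top

theorem rank_K : Units.rank K = 1 := by
  have h := InfinitePlace.card_eq_nrRealPlaces_add_nrComplexPlaces (K := K)
  rw [signature.1, signature.2] at h
  show Fintype.card (InfinitePlace K) - 1 = 1
  omega

/-! ### Units modulo squares -/

/-- The conditions for `-φ (x + yφ + zφ²)²` to be `X - m² θ`, `θ = 2φ - 2φ²`, have no nontrivial
integral solution. -/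
theorem no_zero : ∀ n : ℕ, ∀ x y z m : ℤ, x.natAbs + y.natAbs + z.natAbs ≤ n →
    (x ^ 2 - 2 * y * z - z ^ 2) + (2 * x * y - 2 * y * z - 2 * z ^ 2) = 0 →
    (x ^ 2 - 2 * y * z - z ^ 2) - (y ^ 2 + 2 * x * z + 2 * y * z) = 2 * m ^ 2 →
    x = 0 ∧ y = 0 ∧ z = 0 := by
  intro n
  induction n using Nat.strong_induction_on with
  | _ n ih =>
    intro x y z m hn e1 e2
    have key : ∀ a b c d : ZMod 4, (a ^ 2 - 2 * b * c - c ^ 2) + (2 * a * b - 2 * b * c - 2 * c ^ 2) = 0 →
        (a ^ 2 - 2 * b * c - c ^ 2) - (b ^ 2 + 2 * a * c + 2 * b * c) = 2 * d ^ 2 →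
        2 * a = 0 ∧ 2 * b = 0 ∧ 2 * c = 0 := by decide +kernel
    obtain ⟨hx, hy, hz⟩ := key x y z m
      (by exact_mod_cast congrArg (Int.cast : ℤ → ZMod 4) e1)
      (by exact_mod_cast congrArg (Int.cast : ℤ → ZMod 4) e2)
    have half : ∀ a : ℤ, (2 * (a : ZMod 4)) = 0 → ∃ b, a = 2 * b := fun a h => by
      have h4 : ((2 * a : ℤ) : ZMod 4) = 0 := by push_cast; exact h
      obtain ⟨b, hb⟩ := (ZMod.intCast_zmod_eq_zero_iff_dvd _ 4).mp h4
      exact ⟨b, by omega⟩
    obtain ⟨x', rfl⟩ := half x hx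
    obtain ⟨y', rfl⟩ := half y hy
    obtain ⟨z', rfl⟩ := half z hz
    obtain ⟨m', rfl⟩ : (2 : ℤ) ∣ m := Int.prime_two.dvd_of_dvd_pow (n := 2)
      ⟨x' ^ 2 - 2 * y' * z' - z' ^ 2 - (y' ^ 2 + 2 * x' * z' + 2 * y' * z'),
        mul_left_cancel₀ (two_ne_zero' ℤ) (by linear_combination -e2)⟩
    by_cases h0 : x' = 0 ∧ y' = 0 ∧ z' = 0
    · obtain ⟨rfl, rfl, rfl⟩ := h0; simp
    · have := ih (x'.natAbs + y'.natAbs + z'.natAbs) (by omega) x' y' z' m' le_rfl
        (by linarith) (by linarith)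
      exact absurd this h0

/-- `-φ` times a nonzero square is never `X - m² θ`. -/
theorem ne_eps_mul_sq {s : K} (hs : s ≠ 0) (X m : ℚ) :
    el X (-2 * m ^ 2) (2 * m ^ 2) ≠ -phi * s ^ 2 := by
  intro h
  obtain ⟨x, y, z, rfl⟩ := exists_el s
  rw [show -phi = el 0 (-1) 0 by simp [el], pow_two (el x y z), el_mul, el_mul] at h
  obtain ⟨-, h1, h2⟩ := el_inj h
  set D : ℤ := (x.den : ℤ) * y.den * z.den * m.den with hD
  have hD0 : (D : ℚ) ≠ 0 := by
    rw [hD]; exact_mod_cast by simp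
  obtain ⟨a, ha⟩ : ∃ a : ℤ, (a : ℚ) = x * D :=
    ⟨x.num * (y.den * z.den * m.den), by rw [hD]; push_cast; rw [← Rat.mul_den_eq_num x]; ring⟩
  obtain ⟨b, hb⟩ : ∃ b : ℤ, (b : ℚ) = y * D :=
    ⟨y.num * (x.den * z.den * m.den), by rw [hD]; push_cast; rw [← Rat.mul_den_eq_num y]; ring⟩
  obtain ⟨c, hc⟩ : ∃ c : ℤ, (c : ℚ) = z * D :=
    ⟨z.num * (x.den * y.den * m.den), by rw [hD]; push_cast; rw [← Rat.mul_den_eq_num z]; ring⟩
  obtain ⟨e, he⟩ : ∃ e : ℤ, (e : ℚ) = m * D :=
    ⟨m.num * (x.den * y.den * z.den), by rw [hD]; push_cast; rw [← Rat.mul_den_eq_num m]; ring⟩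
  obtain ⟨ra, rb, rc⟩ := no_zero _ a b c e le_rfl
    (by
      have : ((a : ℚ) ^ 2 - 2 * b * c - (c : ℚ) ^ 2) +
          (2 * (a : ℚ) * b - 2 * b * c - 2 * (c : ℚ) ^ 2) = 0 := by
        rw [ha, hb, hc]; linear_combination (D : ℚ) ^ 2 * (h1 + h2)
      exact_mod_cast this)
    (by
      have : ((a : ℚ) ^ 2 - 2 * b * c - (c : ℚ) ^ 2) -
          ((b : ℚ) ^ 2 + 2 * a * c + 2 * b * c) = 2 * (e : ℚ) ^ 2 := by
        rw [ha, hb, hc, he]; linear_combination (D : ℚ) ^ 2 * h1
      exact_mod_cast this)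
  subst ra rb rc
  simp only [Int.cast_zero] at ha hb hc
  apply hs
  rw [(mul_eq_zero.mp ha.symm).resolve_right hD0, (mul_eq_zero.mp hb.symm).resolve_right hD0,
    (mul_eq_zero.mp hc.symm).resolve_right hD0]
  simp [el]

/-- The root as a unit. -/
def phiU : (𝓞 K)ˣ :=
  Units.mkOfMulEqOne phiO (-phiO ^ 2 + phiO - 1) (by linear_combination -phiO_eq)

@[simp] theorem coe_phiU : ((phiU : 𝓞 K) : K) = phi := rfl

/-- Every unit is a sign times a power of `φ` times a square. -/
theorem unit_eq (u : (𝓞 K)ˣ) : ∃ (e : K) (i : ℕ) (η : K), (e = 1 ∨ e = -1) ∧ i ≤ 1 ∧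
    ((u : 𝓞 K) : K) = e * phi ^ i * η ^ 2 := by
  classical
  have hodd : Odd (finrank ℚ K) := by rw [finrank_K]; decide
  let q : Fin 1 ≃ Fin (Units.rank K) := finCongr rank_K.symm
  set F : K := ((Units.fundSystem K (q 0) : 𝓞 K) : K) with hF
  have hF0 : F ≠ 0 := by
    rw [hF]; exact Units.coe_ne_zero _
  have decomp : ∀ v : (𝓞 K)ˣ, ∃ (e : K) (i : ℕ) (η : K), (e = 1 ∨ e = -1) ∧ i ≤ 1 ∧ η ≠ 0 ∧
      ((v : 𝓞 K) : K) = e * F ^ i * η ^ 2 := fun v => by
    obtain ⟨⟨t, f⟩, hv, -⟩ := Units.exist_unique_eq_mul_prod K v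
    have ht : (((t : (𝓞 K)ˣ) : 𝓞 K) : K) = 1 ∨ (((t : (𝓞 K)ˣ) : 𝓞 K) : K) = -1 := by
      rcases Units.torsion_eq_one_or_neg_one_of_odd_finrank hodd t with h | h <;> simp [h]
    have hv' : ((v : 𝓞 K) : K) = (((t : (𝓞 K)ˣ) : 𝓞 K) : K) * F ^ f (q 0) := by
      rw [hv, ← Equiv.prod_comp q, Fin.prod_univ_one]
      simp [hF, Units.coe_zpow]
    obtain ⟨j, hj | hj⟩ := Int.even_or_odd' (f (q 0))
    · refine ⟨_, 0, F ^ j, ht, by omega, zpow_ne_zero _ hF0, ?_⟩
      rw [hv', hj, mul_comm 2 j, zpow_mul, pow_zero, mul_one]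
      norm_cast
    · refine ⟨_, 1, F ^ j, ht, le_rfl, zpow_ne_zero _ hF0, ?_⟩
      rw [hv', hj, zpow_add_one₀ hF0, mul_comm 2 j, zpow_mul, pow_one]
      norm_cast
      ring
  -- `± φ` is not a square
  have nsq : ∀ e : K, e = 1 ∨ e = -1 → ∀ η : K, η ≠ 0 → phi ≠ e * η ^ 2 := by
    rintro e (rfl | rfl) η hη h
    · have hn := congrArg (Algebra.norm ℚ) h
      rw [show phi = el 0 1 0 by simp [el], one_mul, map_pow, norm_el] at hn
      nlinarith [sq_nonneg (Algebra.norm ℚ η)]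
    · refine ne_eps_mul_sq (s := 1 / η) (one_div_ne_zero hη) 1 0 ?_
      rw [h]
      simp [el]
      field_simp
  obtain ⟨e₀, i₀, η₀, he₀, hi₀, hη₀, hphi⟩ := decomp phiU
  rw [coe_phiU] at hphi
  obtain rfl : i₀ = 1 := by
    rcases Nat.le_one_iff_eq_zero_or_eq_one.mp hi₀ with rfl | h
    · exact absurd (by simpa using hphi) (nsq e₀ he₀ η₀ hη₀)
    · exact h
  obtain ⟨e, i, η, he, hi, -, hu⟩ := decomp u
  rcases Nat.le_one_iff_eq_zero_or_eq_one.mp hi with rfl | rfl
  · exact ⟨e, 0, η, he, by omega, by simpa using hu⟩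
  · have he' : e * e₀ = 1 ∨ e * e₀ = -1 := by
      rcases he with rfl | rfl <;> rcases he₀ with rfl | rfl <;> simp
    refine ⟨e * e₀, 1, η / η₀, he', le_rfl, ?_⟩
    rw [hu, hphi]
    have hee : e₀ * e₀ = 1 := by rcases he₀ with rfl | rfl <;> simp
    field_simp
    linear_combination -(e * η ^ 2) * hee

/-! ### Two primes -/

/-- The prime over `2`. -/
def piTwo : 𝓞 K := phiO + 1

/-- A prime over `11`. -/
def piEleven : 𝓞 K := -5 + 4 * phiO - 2 * phiO ^ 2

theorem norm_piTwo : Algebra.norm ℚ (piTwo : K) = 2 := by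
  rw [show (piTwo : K) = el 1 1 0 by simp [piTwo, el]; ring, norm_el]
  norm_num

theorem norm_piEleven : Algebra.norm ℚ (piEleven : K) = -11 := by
  rw [show (piEleven : K) = el (-5) 4 (-2) by simp [piEleven, el, map_ofNat]; ring, norm_el]
  norm_num

theorem prime_of_norm {π : 𝓞 K} {n : ℤ} (hn : n.natAbs.Prime)
    (h : Algebra.norm ℚ (π : K) = n) : Prime π := by
  have h' : Algebra.norm ℤ π = n := by
    rw [← Algebra.coe_norm_int] at h; exact_mod_cast h
  have hπ : π ≠ 0 := fun e => by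
    rw [e, Algebra.norm_zero] at h'
    rw [← h'] at hn
    exact Nat.not_prime_zero hn
  rw [← Ideal.span_singleton_prime hπ]
  refine Ideal.isPrime_of_irreducible_absNorm ?_
  rw [Ideal.absNorm_span_singleton, h']
  exact hn.prime.irreducible

theorem prime_piTwo : Prime piTwo :=
  prime_of_norm (n := 2) Nat.prime_two (by rw [norm_piTwo]; norm_num)

theorem prime_piEleven : Prime piEleven :=
  prime_of_norm (n := -11) (by norm_num) (by rw [norm_piEleven]; norm_num)

end FA.Curve11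

end
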